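import Fermat.Agent.S27.Grp.Spec
import Fermat.Agent.S25.H130.Basic
import Fermat.Agent.S25.H265.GDCRig

/-!
# Row S27, block GRP, leaf TENS-GOOD (helper736, subtask 695)

`tensGood : Grp.Dict Ch → Grp.AlgLeaves k → Grp.Stmt.TensGood Ch` (for `k` algebraically closed):
the recipes of tensor products and of inverses are good, and prescribe data of degree zero when
the inputs are fibrewise algebraically equivalent to zero.

Formal from the S25 dictionary (`Grp.Dict`) and the pure-algebra leaves (`Grp.AlgLeaves`):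

* `unique`     : `DictIso` + `TensIso` + `TensUnique` (+ `TensAssoc`, `TensUnit`, `TensComm` for
  the uniqueness of inverses);
* `bc`         : `AlgBCExists` + `DictBC` + `TensBC` + pullback along a composite
  (`H130.rIso_pullbackAlong_comp`); for inverses also "base change of the unit is the unit"
  (through the dictionary and `Scheme.Modules.pullbackUnitIso`);
* `exists_rig` : `DictSections` + `TensorExists` / `TensInv` + `TensRig` / `TensRigCancel`;
* degree zero  : `DictDeg` + `DegAdd` over the algebraic closure + `degConst`.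
-/

set_option autoImplicit false
universe u
open CategoryTheory CategoryTheory.Limits AlgebraicGeometry AlgebraicGeometry.RelPicard
  NeronModelInfra GoodReductionJacobian
open scoped TensorProduct

namespace Fermat.Agent.S27.H736

open Fermat.Agent.S25 Fermat.Agent.S27 Fermat.Agent.S27.Grp

noncomputable section

variable {k : Type u} [Field k] {C : Scheme.{u}} {c : C ⟶ Spec (CommRingCat.of k)}
  {ε : SchemeHomOver (𝟙 (Spec (CommRingCat.of k))) c} (Ch : ChartOf c ε)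

/-! ## The dictionary up to isomorphism -/

/-- `Corr` is invariant under isomorphism of the gluing datum. -/
theorem corr_of_isIso {A : Type u} [CommRing A] [Algebra k A]
    {L : (pullback c (specStr k A)).Modules} {G G' : CurveGD k Ch.B₀ Ch.B₁ Ch.B₀₁ A}
    (h : Corr Ch A L G) (e : G.IsIso G') : Corr Ch A L G' := by
  obtain ⟨e₀, e₁, e₀₁, h₀, h₁, h₀₁, hr₀, hr₁⟩ := h
  obtain ⟨i⟩ := e
  refine ⟨e₀.trans i.e₀.toAddEquiv, e₁.trans i.e₁.toAddEquiv, e₀₁.trans i.e₀₁.toAddEquiv,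
    ⟨?_, ?_⟩, ⟨?_, ?_⟩, ⟨?_, ?_⟩, ?_, ?_⟩
  · intro a s
    show i.e₀ (e₀ _) = _ • i.e₀ (e₀ s)
    rw [h₀.1, map_smul]
  · intro f s
    show i.e₀ (e₀ _) = _ • i.e₀ (e₀ s)
    rw [h₀.2, map_smul]
  · intro a s
    show i.e₁ (e₁ _) = _ • i.e₁ (e₁ s)
    rw [h₁.1, map_smul]
  · intro f s
    show i.e₁ (e₁ _) = _ • i.e₁ (e₁ s)
    rw [h₁.2, map_smul]
  · intro a s
    show i.e₀₁ (e₀₁ _) = _ • i.e₀₁ (e₀₁ s)
    rw [h₀₁.1, map_smul]
  · intro f s
    show i.e₀₁ (e₀₁ _) = _ • i.e₀₁ (e₀₁ s)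
    rw [h₀₁.2, map_smul]
  · intro s
    show i.e₀₁ (e₀₁ _) = G'.r₀ (i.e₀ (e₀ s))
    rw [hr₀, i.comm₀]
  · intro s
    show i.e₀₁ (e₀₁ _) = G'.r₁ (i.e₁ (e₁ s))
    rw [hr₁, i.comm₁]

variable {Ch}

/-- `Corr` is invariant under isomorphism of the bundle. -/
theorem corr_of_rIso (hD : Dict Ch) {A : Type u} [CommRing A] [Algebra k A]
    {M M' : RigidifiedLineBundle c ε (specStr k A)} {G : CurveGD k Ch.B₀ Ch.B₁ Ch.B₀₁ A}
    (h : Corr Ch A M.L G) (e : RIso M M') : Corr Ch A M'.L G := by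
  obtain ⟨G', hG', -⟩ := hD.sec A M'
  have hiso : G.IsIso G' := (hD.iso A M M' G G' h hG').mp e
  exact corr_of_isIso Ch hG' (H265.isIso_symm hiso)

/-- Two gluing data of the same bundle are isomorphic. -/
theorem isIso_of_corr (hD : Dict Ch) {A : Type u} [CommRing A] [Algebra k A]
    (M : RigidifiedLineBundle c ε (specStr k A)) {G G' : CurveGD k Ch.B₀ Ch.B₁ Ch.B₀₁ A}
    (h : Corr Ch A M.L G) (h' : Corr Ch A M.L G') : G.IsIso G' :=
  (hD.iso A M M G G' h h').mp (H130.rIso_refl M)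

/-- The dictionary is compatible with base change along `A → A'`, for pullbacks of a bundle over
an arbitrary base. -/
theorem corr_postComp (hD : Dict Ch) {T : Scheme.{u}} {t : T ⟶ Spec (CommRingCat.of k)}
    (M : RigidifiedLineBundle c ε t) {A A' : Type u} [CommRing A] [Algebra k A] [CommRing A']
    [Algebra k A'] (a : A →ₐ[k] A') (s : SchemeHomOver (specStr k A) t)
    {G : CurveGD k Ch.B₀ Ch.B₁ Ch.B₀₁ A} {G' : CurveGD k Ch.B₀ Ch.B₁ Ch.B₀₁ A'}
    (h : Corr Ch A (M.pullbackAlong s).L G) (hbc : CurveGD.IsBC a G G') :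
    Corr Ch A' (M.pullbackAlong (postComp s (specHomOver k a))).L G' :=
  corr_of_rIso hD (hD.bc A A' a (M.pullbackAlong s) G G' h hbc)
    (H130.rIso_pullbackAlong_comp M s (specHomOver k a))

/-! ## The unit datum -/

/-- The unit datum has degree zero on every fibre. -/
theorem unit_deg0 (hD : Dict Ch) (A : Type u) [CommRing A] [Algebra k A] :
    CurveGD.Deg0 (GlueDatum.unit A (A ⊗[k] Ch.B₀) (A ⊗[k] Ch.B₁) (A ⊗[k] Ch.B₀₁)) :=
  (hD.deg A (RigidifiedLineBundle.unit (c := c) (ε := ε) (specStr k A)) _ (hD.unit A)).mp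
    (fibrewiseAlgEquivZero_unit _)

/-- The unit datum is rigidifiable. -/
theorem unit_rigidifiable (hD : Dict Ch) (A : Type u) [CommRing A] [Algebra k A] :
    CurveGD.Rigidifiable Ch.e
      (GlueDatum.unit A (A ⊗[k] Ch.B₀) (A ⊗[k] Ch.B₁) (A ⊗[k] Ch.B₀₁)) := by
  obtain ⟨G, hG, hrig⟩ := hD.sec A (RigidifiedLineBundle.unit (c := c) (ε := ε) (specStr k A))
  exact H265.rigidifiable_of_isIso (isIso_of_corr hD _ hG (hD.unit A)) hrig

/-- A base change of the unit datum is isomorphic to the unit datum. -/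
theorem unit_isIso_of_isBC (hD : Dict Ch) {A A' : Type u} [CommRing A] [Algebra k A]
    [CommRing A'] [Algebra k A'] (a : A →ₐ[k] A') {X : CurveGD k Ch.B₀ Ch.B₁ Ch.B₀₁ A'}
    (hX : CurveGD.IsBC a
      (GlueDatum.unit A (A ⊗[k] Ch.B₀) (A ⊗[k] Ch.B₁) (A ⊗[k] Ch.B₀₁)) X) :
    X.IsIso (GlueDatum.unit A' (A' ⊗[k] Ch.B₀) (A' ⊗[k] Ch.B₁) (A' ⊗[k] Ch.B₀₁)) := by
  have h1 := hD.bc A A' a (RigidifiedLineBundle.unit (c := c) (ε := ε) (specStr k A)) _ X
    (hD.unit A) hX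
  have h2 : RIso ((RigidifiedLineBundle.unit (c := c) (ε := ε) (specStr k A)).pullbackAlong
      (specHomOver k a)) (RigidifiedLineBundle.unit (c := c) (ε := ε) (specStr k A')) :=
    ⟨Scheme.Modules.pullbackUnitIso _⟩
  exact isIso_of_corr hD _ (corr_of_rIso hD h1 h2) (hD.unit A')

/-! ## Degrees over a field -/

/-- Additivity of the degree over an arbitrary field `K ⊇ k` (by passing to the algebraic
closure). -/
theorem degree_of_isTensor [IsAlgClosed k] (hD : Dict Ch) (hA : AlgLeaves k)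
    (K : Type u) [Field K] [Algebra k K] {G G' G'' : CurveGD k Ch.B₀ Ch.B₁ Ch.B₀₁ K}
    (h : IsTensor G G' G'') : G''.degree = G.degree + G'.degree := by
  let ψ : K →ₐ[k] AlgebraicClosure K := IsScalarTower.toAlgHom k K (AlgebraicClosure K)
  obtain ⟨H, hH⟩ := hD.bcExists K (AlgebraicClosure K) ψ G
  obtain ⟨H', hH'⟩ := hD.bcExists K (AlgebraicClosure K) ψ G'
  obtain ⟨H'', hH''⟩ := hD.bcExists K (AlgebraicClosure K) ψ G''
  have ht : IsTensor H H' H'' :=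
    hA.tensBC Ch.B₀ Ch.B₁ Ch.B₀₁ K (AlgebraicClosure K) ψ G G' G'' H H' H'' h hH hH' hH''
  have hdeg := hA.degAdd Ch.B₀ Ch.B₁ Ch.B₀₁ Ch.x Ch.y Ch.e Ch.isCurveChart
    (AlgebraicClosure K) H H' H'' ht
  rw [hD.degConst K (AlgebraicClosure K) ψ G H hH,
    hD.degConst K (AlgebraicClosure K) ψ G' H' hH',
    hD.degConst K (AlgebraicClosure K) ψ G'' H'' hH''] at hdeg
  exact hdeg

/-- A tensor product of data of degree zero has degree zero. -/
theorem deg0_of_isTensor [IsAlgClosed k] (hD : Dict Ch) (hA : AlgLeaves k)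
    {A : Type u} [CommRing A] [Algebra k A] {G G' G'' : CurveGD k Ch.B₀ Ch.B₁ Ch.B₀₁ A}
    (h : IsTensor G G' G'') (hG : G.Deg0) (hG' : G'.Deg0) : G''.Deg0 := by
  intro K _ _ φ GK hGK
  obtain ⟨H, hH⟩ := hD.bcExists A K φ G
  obtain ⟨H', hH'⟩ := hD.bcExists A K φ G'
  have ht : IsTensor H H' GK :=
    hA.tensBC Ch.B₀ Ch.B₁ Ch.B₀₁ A K φ G G' G'' H H' GK h hH hH' hGK
  rw [degree_of_isTensor hD hA K ht, hG K φ H hH, hG' K φ H' hH', add_zero]

/-- If `G' ⊗ G` and `G` have degree zero, so has `G'`. -/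
theorem deg0_of_isTensor_cancel [IsAlgClosed k] (hD : Dict Ch) (hA : AlgLeaves k)
    {A : Type u} [CommRing A] [Algebra k A] {G G' G'' : CurveGD k Ch.B₀ Ch.B₁ Ch.B₀₁ A}
    (h : IsTensor G' G G'') (hG : G.Deg0) (hG'' : G''.Deg0) : G'.Deg0 := by
  intro K _ _ φ GK hGK
  obtain ⟨H, hH⟩ := hD.bcExists A K φ G
  obtain ⟨H'', hH''⟩ := hD.bcExists A K φ G''
  have ht : IsTensor GK H H'' :=
    hA.tensBC Ch.B₀ Ch.B₁ Ch.B₀₁ A K φ G' G G'' GK H H'' h hGK hH hH''
  have hdeg := degree_of_isTensor hD hA K ht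
  rw [hG K φ H hH, hG'' K φ H'' hH'', add_zero] at hdeg
  exact hdeg.symm

/-! ## TENS-GOOD -/

section Good

variable {T : Scheme.{u}} {t : T ⟶ Spec (CommRingCat.of k)}

/-- The recipe of the tensor product is good. -/
theorem tensRecipe_isGood (hD : Dict Ch) (hA : AlgLeaves k)
    (M M' : RigidifiedLineBundle c ε t) : (tensRecipe Ch M M').IsGood where
  unique := by
    rintro A _ _ s G₁ G₂ ⟨G, G', hG, hG', hT⟩ ⟨H, H', hH, hH', hT'⟩
    have e : G.IsIso H := isIso_of_corr hD _ hG hH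
    have e' : G'.IsIso H' := isIso_of_corr hD _ hG' hH'
    have hT₁ : IsTensor H H' G₁ :=
      hA.tensIso A _ _ _ G G' G₁ H H' G₁ hT e e' (H265.isIso_refl G₁)
    exact hA.tensUnique A _ _ _ H H' G₁ G₂ hT₁ hT'
  bc := by
    rintro A A' _ _ _ _ a s G₃ G₃' ⟨G, G', hG, hG', hT⟩ hbc
    obtain ⟨H, hH⟩ := hD.bcExists A A' a G
    obtain ⟨H', hH'⟩ := hD.bcExists A A' a G'
    exact ⟨H, H', corr_postComp hD M a s hG hH, corr_postComp hD M' a s hG' hH',
      hA.tensBC Ch.B₀ Ch.B₁ Ch.B₀₁ A A' a G G' G₃ H H' G₃' hT hH hH' hbc⟩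
  exists_rig := by
    intro A _ _ s
    obtain ⟨G, hG, hrig⟩ := hD.sec A (M.pullbackAlong s)
    obtain ⟨G', hG', hrig'⟩ := hD.sec A (M'.pullbackAlong s)
    obtain ⟨G'', hT⟩ := hA.tensorExists A _ _ _ G G'
    exact ⟨G'', ⟨G, G', hG, hG', hT⟩,
      hA.tensRig Ch.B₀ Ch.B₁ Ch.B₀₁ Ch.e A G G' G'' hT hrig hrig'⟩

/-- The recipe of the inverse is good. -/
theorem invRecipe_isGood (hD : Dict Ch) (hA : AlgLeaves k)
    (M : RigidifiedLineBundle c ε t) : (invRecipe Ch M).IsGood where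
  unique := by
    rintro A _ _ s G₁ G₂ ⟨G, hG, hT⟩ ⟨H, hH, hT'⟩
    -- both are inverses of `G`
    have e : H.IsIso G := isIso_of_corr hD _ hH hG
    have hT₂ : IsTensor G₂ G (GlueDatum.unit A _ _ _) :=
      hA.tensIso A _ _ _ G₂ H _ G₂ G _ hT' (H265.isIso_refl G₂) e (H265.isIso_refl _)
    -- `(G₁ ⊗ G) ⊗ G₂ ≅ G₁ ⊗ (G ⊗ G₂)`
    have hX : IsTensor G₁ G (GlueDatum.unit A _ _ _) := hT
    have hY : IsTensor (GlueDatum.unit A _ _ _) G₂ G₂ := hA.tensUnit A _ _ _ G₂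
    have hZ : IsTensor G G₂ (GlueDatum.unit A _ _ _) := hA.tensComm A _ _ _ G₂ G _ hT₂
    have hW : IsTensor G₁ (GlueDatum.unit A _ _ _) G₁ :=
      hA.tensComm A _ _ _ _ G₁ G₁ (hA.tensUnit A _ _ _ G₁)
    exact H265.isIso_symm (hA.tensAssoc A _ _ _ G₁ G G₂ _ G₂ _ G₁ hX hY hZ hW)
  bc := by
    rintro A A' _ _ _ _ a s G₃ G₃' ⟨G, hG, hT⟩ hbc
    obtain ⟨H, hH⟩ := hD.bcExists A A' a G
    obtain ⟨X, hX⟩ := hD.bcExists A A' a (GlueDatum.unit A _ _ _)
    have hT' : IsTensor G₃' H X :=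
      hA.tensBC Ch.B₀ Ch.B₁ Ch.B₀₁ A A' a G₃ G _ G₃' H X hT hbc hH hX
    exact ⟨H, corr_postComp hD M a s hG hH,
      hA.tensIso A' _ _ _ G₃' H X G₃' H _ hT' (H265.isIso_refl _) (H265.isIso_refl _)
        (unit_isIso_of_isBC hD a hX)⟩
  exists_rig := by
    intro A _ _ s
    obtain ⟨G, hG, hrig⟩ := hD.sec A (M.pullbackAlong s)
    obtain ⟨G', hT⟩ := hA.tensInv A _ _ _ G
    exact ⟨G', ⟨G, hG, hT⟩,
      hA.tensRigCancel Ch.B₀ Ch.B₁ Ch.B₀₁ Ch.e A G' G _ hT hrig (unit_rigidifiable hD A)⟩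

end Good

variable (Ch)

/-- **TENS-GOOD.** -/
theorem tensGood [IsAlgClosed k] (hD : Dict Ch) (hA : AlgLeaves k) : Stmt.TensGood Ch := by
  intro T t M M'
  refine ⟨tensRecipe_isGood hD hA M M', invRecipe_isGood hD hA M, ?_, ?_⟩
  · rintro hM hM' A _ _ s G'' ⟨G, G', hG, hG', hT⟩
    have h1 : G.Deg0 :=
      (hD.deg A (M.pullbackAlong s) G hG).mp (H130.deg0_pullbackAlong hM s)
    have h2 : G'.Deg0 :=
      (hD.deg A (M'.pullbackAlong s) G' hG').mp (H130.deg0_pullbackAlong hM' s)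
    exact deg0_of_isTensor hD hA hT h1 h2
  · rintro hM A _ _ s G' ⟨G, hG, hT⟩
    have h1 : G.Deg0 :=
      (hD.deg A (M.pullbackAlong s) G hG).mp (H130.deg0_pullbackAlong hM s)
    exact deg0_of_isTensor_cancel hD hA hT h1 (unit_deg0 hD A)

end

end Fermat.Agent.S27.H736
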